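import Fermat.Agent.S19.Weil.Pairing

/-!
# S19 block ND (nondegeneracy of the Weil pairing): the contract consumed from block DIV

`DivStatement` : `Pic⁰` of a function field over an algebraically closed field of characteristic zero
is `ℓ`-divisible.  Block DIV (`Fermat/Agent/S19/DIV/`) proves it; block ND takes it as a hypothesis.
-/

set_option autoImplicit false

namespace Fermat.Agent.S19.ND

open AlgebraicCurve Fermat.Agent.Lib.RR

universe u v

/-- `ℓ`-divisibility of `Pic⁰` (contract of block DIV). -/
def DivStatement : Prop :=
  ∀ (K : Type u) (F : Type v) [Field K] [Field F] [Algebra K F] [IsAlgClosed K] [CharZero K]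
    [IsFF K F] (ℓ : ℕ), ℓ.Prime → ∀ x : Pic0 K F, ∃ y : Pic0 K F, ℓ • y = x

end Fermat.Agent.S19.ND
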