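import Fermat.Agent.S19.Weil.Pairing

/-!
# S19 block ND, leaf N1: compatibility of the Weil pairings of different levels
`e_{mn}(x, y) = e_n(m x, y)` for `x ∈ J[mn]`, `y ∈ J[n]`.
-/

set_option autoImplicit false
set_option linter.unusedSectionVars false

namespace Fermat.Agent.S19.ND

open AlgebraicCurve Fermat.Agent.Lib.RR Fermat.Agent.S19.Weil

variable {K F : Type*} [Field K] [IsAlgClosed K] [CharZero K] [Field F] [Algebra K F] [IsFF K F]

/-- `IsRep (m * n) x D f → IsRep n (m • x) (m • D) f`  (`div f = (m n) D = n (m D)`). -/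
theorem isRep_nsmul_left {m n : ℕ} {x : Pic0 K F} {D : Divisor K F} {f : F}
    (h : IsRep (m * n) x D f) : IsRep n (m • x) (m • D) f := by
  obtain ⟨hD, hx, hf, hdiv⟩ := h
  refine ⟨nsmul_mem hD m, ?_, hf, ?_⟩
  · rw [← hx]
    rfl
  · rw [hdiv, mul_comm, mul_smul]

/-- `IsRep n y E g → IsRep (m * n) y E (g ^ m)`  (`div g^m = m (n E)`). -/
theorem isRep_pow_level {n : ℕ} (m : ℕ) {y : Pic0 K F} {E : Divisor K F} {g : F}
    (h : IsRep n y E g) : IsRep (m * n) y E (g ^ m) := by
  have hord := h.ord_eq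
  obtain ⟨hD, hx, hf, hdiv⟩ := h
  refine ⟨hD, hx, pow_ne_zero _ hf, ?_⟩
  ext v
  rw [divOf_apply, Fermat.Agent.GAL.RED.ord_pow, hord, Finsupp.smul_apply, nsmul_eq_mul]
  push_cast
  ring

/-- PROOF.  `exists_isRep hy ∅` gives `(E, g)`; `exists_isRep hx E.support` gives `(D, f)` with
`DisjD D E`.  By `weil_eq` (with `isRep_pow_level`, `isRep_nsmul_left`):
LHS `= f(E) / (g^m)(D) = f(E) / g(D)^m` (`evD_pow`), RHS `= f(E) / g(m D) = f(E) / g(D)^m`
(`evD_nsmul`). -/
theorem weil_mul_left {m n : ℕ} {x y : Pic0 K F} (hx : x ∈ Pic0.torsion K F (m * n))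
    (hy : y ∈ Pic0.torsion K F n) : weil (m * n) x y = weil n (m • x) y := by
  obtain ⟨E, g, hE, -⟩ := exists_isRep hy ∅
  obtain ⟨D, f, h, hav⟩ := exists_isRep hx E.support
  have hd : DisjD D E := fun P => by
    by_cases hP : P ∈ E.support
    · exact Or.inl (hav P hP)
    · exact Or.inr (Finsupp.notMem_support_iff.mp hP)
  have hd' : DisjD (m • D) E := fun P => by
    rcases hd P with h1 | h1
    · left
      rw [Finsupp.smul_apply, h1, smul_zero]
    · exact Or.inr h1
  rw [weil_eq h (isRep_pow_level m hE) hd, weil_eq (isRep_nsmul_left h) hE hd', evD_pow,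
    evD_nsmul]

/-- from `weil_mul_left` and `weil_swap`. -/
theorem weil_mul_right {m n : ℕ} {x y : Pic0 K F} (hx : x ∈ Pic0.torsion K F n)
    (hy : y ∈ Pic0.torsion K F (m * n)) : weil (m * n) x y = weil n x (m • y) := by
  rw [weil_swap (m * n) y x, weil_mul_left hy hx, ← weil_swap]

end Fermat.Agent.S19.ND
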