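import Fermat.Agent.S19.ND.CoreDiv

/-!
# S19 block ND, leaf N6: the core computation, the value of the pairing.

Setting: `F' / F` finite (separable) extension of function fields over `K`, `(D, f)` represents
`x ∈ J_F[ℓ]`, `u ∈ F'` with `u ^ ℓ = f`, `σ ∈ Aut(F'/F)` with `σ u = ζ u`.
If `ℓ E' = (σ - 1) P₁ + div h'` on `F'`, with `u` a unit at `P₁` and on the support of `E'`, then
`y := [π_* E'] ∈ J_F[ℓ]` (with `ℓ π_* E' = div (N h')`) and `e_ℓ(x, y) = ζ⁻¹`.
-/

set_option autoImplicit false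
set_option linter.unusedSectionVars false

namespace Fermat.Agent.S19.ND

open AlgebraicCurve Fermat.Agent.Lib.RR Fermat.Agent.S19.Weil

variable {K F F' : Type*} [Field K] [IsAlgClosed K] [CharZero K] [Field F] [Field F'] [Algebra K F]
  [Algebra K F'] [Algebra F F'] [IsScalarTower K F F'] [FiniteDimensional F F']
  [Algebra.IsSeparable F F'] [IsFF K F] [IsFF K F']

/-- `(π_* E', N h')` represents an `ℓ`-torsion class.
`div (N h') = π_* (div h') = π_* (ℓ E' - (σ P₁ - P₁)) = ℓ π_* E'` (`divOf_norm`, `map_sub`,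
`map_nsmul`, `Divisor.mapRestrict_single`, `restrict_sa_smul`); `N h' ≠ 0` (`Algebra.norm_ne_zero_iff`). -/
theorem isRep_pushforward {ℓ : ℕ} (σ : F' ≃ₐ[F] F') {P₁ : Place K F'} {E' : Divisor K F'} {h' : F'}
    (hh : h' ≠ 0) (hdeg : Divisor.degree E' = 0)
    (hE : ℓ • E' = (Finsupp.single (sa K σ • P₁) 1 - Finsupp.single P₁ 1) + divOf (K := K) h') :
    ∃ hD : Divisor.mapRestrict F E' ∈ Divisor.degZero (K := K) (F := F),
      IsRep ℓ (Pic0.mk ⟨Divisor.mapRestrict F E', hD⟩) (Divisor.mapRestrict F E')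
        (Algebra.norm F h') := by
  have hD : Divisor.mapRestrict F E' ∈ Divisor.degZero (K := K) (F := F) := by
    rw [Divisor.mem_degZero, degree_mapRestrict, hdeg]
  refine ⟨hD, hD, rfl, (Algebra.norm_ne_zero_iff).2 hh, ?_⟩
  have h1 : divOf (K := K) h'
      = ℓ • E' - (Finsupp.single (sa K σ • P₁) 1 - Finsupp.single P₁ 1) := by
    rw [hE, add_sub_cancel_left]
  rw [divOf_norm hh, h1, map_sub, map_sub, map_nsmul, Divisor.mapRestrict_single,
    Divisor.mapRestrict_single, restrict_sa_smul, sub_self, sub_zero]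

/-- THE computation.
* `DisjD D (π_* E')`: if `D P ≠ 0` then every `w` above `P` has `ord_w u ≠ 0`
  (`divOf_root`, `Divisor.pullback_apply`, `Place.ramificationIndex_pos`), so `E' w = 0`;
  `mapRestrict_apply_eq_zero`.
* `f(π_* E') = (π^* f)(E') = (u^ℓ)(E') = u(ℓ E') = u(σ P₁ - P₁) u(div h')`
  (`evD_algebraMap_eq`, `evD_pow`, `evD_nsmul`, `evD_add`).
* `(N h')(D) = h'(π^* D) = h'(div u)` (`evD_pullback`, `divOf_root`; `Disj h' (div u)`: where
  `ord_w u ≠ 0` we have `E' w = 0`, `w ≠ P₁`, `w ≠ σ P₁` (`ord_sa_smul_of_eigen`), so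
  `ord_w h' = 0` by evaluating `hE` at `w`).
* `u(div h') = h'(div u)` : `weil_reciprocity` on `F'`.
* `u(σ P₁ - P₁) = ζ⁻¹` : `evD_sub`, `evD_single`, `evU_sa_smul_of_eigen`. -/
theorem weil_eq_inv_zeta {ℓ : ℕ} (hℓ : ℓ ≠ 0) {x y : Pic0 K F} {D : Divisor K F} {f : F}
    (hx : IsRep ℓ x D f) {u : F'} (hu : u ^ ℓ = algebraMap F F' f) (σ : F' ≃ₐ[F] F') {ζ : Kˣ}
    (hσ : σ u = algebraMap K F' (ζ : K) * u)
    {P₁ : Place K F'} {E' : Divisor K F'} {h' : F'} (hP : P₁.ord u = 0) (hh : h' ≠ 0)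
    (hsupp : ∀ w : Place K F', w.ord u ≠ 0 → E' w = 0)
    (hE : ℓ • E' = (Finsupp.single (sa K σ • P₁) 1 - Finsupp.single P₁ 1) + divOf (K := K) h')
    (hy : IsRep ℓ y (Divisor.mapRestrict F E') (Algebra.norm F h')) :
    weil ℓ x y = ζ⁻¹ := by
  have hf : f ≠ 0 := PairAux_ne_zero hx
  have hdivf : divOf (K := K) f = ℓ • D := PairAux_divOf hx
  have hu0 : u ≠ 0 := by
    rintro rfl
    rw [zero_pow hℓ] at hu
    exact hf ((map_eq_zero _).1 hu.symm)
  have hdivu : divOf (K := K) u = Divisor.pullback F' D := divOf_root hℓ hdivf hu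
  have hordu : ∀ w : Place K F', w.ord u = w.ramificationIndex F * D (w.restrict F) := by
    intro w
    rw [← divOf_apply (K := K) u w, hdivu, Divisor.pullback_apply]
  have hdisjD : DisjD D (Divisor.mapRestrict F E') := by
    intro P
    by_cases hP : D P = 0
    · exact Or.inl hP
    · right
      apply mapRestrict_apply_eq_zero
      intro w hw
      apply hsupp
      rw [hordu w, hw]
      exact mul_ne_zero (by exact_mod_cast (w.ramificationIndex_pos (F := F)).ne') hP
  rw [weil_eq hx hy hdisjD]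
  have h1 : evD f (Divisor.mapRestrict F E')
      = evD u (Finsupp.single (sa K σ • P₁) 1 - Finsupp.single P₁ 1)
        * evD u (divOf (K := K) h') := by
    rw [← evD_algebraMap_eq, ← hu, evD_pow, ← evD_nsmul, hE, evD_add]
  have hσP : (sa K σ • P₁).ord u = 0 := by rw [ord_sa_smul_of_eigen σ hσ, hP]
  have hordh : ∀ w : Place K F', w.ord u ≠ 0 → w.ord h' = 0 := by
    intro w hw
    have h2 := DFunLike.congr_fun hE w
    have e1 : (Finsupp.single (sa K σ • P₁) (1 : ℤ) : Divisor K F') w = 0 := by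
      apply Finsupp.single_eq_of_ne
      rintro rfl
      exact hw hσP
    have e2 : (Finsupp.single P₁ (1 : ℤ) : Divisor K F') w = 0 := by
      apply Finsupp.single_eq_of_ne
      rintro rfl
      exact hw hP
    rw [Finsupp.smul_apply, hsupp w hw, smul_zero, Finsupp.add_apply, Finsupp.sub_apply,
      divOf_apply, e1, e2, sub_zero, zero_add] at h2
    exact h2.symm
  have h2 : evD (Algebra.norm F h') D = evD h' (divOf (K := K) u) := by
    rw [hdivu, evD_pullback]
    refine ⟨hh, fun w hw => hordh w ?_⟩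
    rw [← divOf_apply (K := K) u w, hdivu]
    exact hw
  have h3 : evD u (divOf (K := K) h') = evD h' (divOf (K := K) u) :=
    weil_reciprocity hu0 hh (fun w => by
      by_cases hw : w.ord u = 0
      · exact Or.inl hw
      · exact Or.inr (hordh w hw))
  have h4 : evD u (Finsupp.single (sa K σ • P₁) 1 - Finsupp.single P₁ 1) = ζ⁻¹ := by
    rw [evD_sub, evD_single, evD_single, zpow_one, zpow_one,
      evU_sa_smul_of_eigen σ hu0 hσ P₁ hP, mul_div_assoc, div_self', mul_one]
  rw [h1, h2, h3, h4, mul_div_assoc, div_self', mul_one]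

end Fermat.Agent.S19.ND
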