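import Fermat.Agent.S19.ND.IsFFExt

/-!
# S19 block ND, leaf N4: the Kummer extension `F₁ = F(f^{1/ℓ})` of a function field.
-/

set_option autoImplicit false
set_option linter.unusedSectionVars false

namespace Fermat.Agent.S19.ND

open AlgebraicCurve Fermat.Agent.Lib.RR IntermediateField

universe u v

/-- The Kummer extension.
PROOF. `X ^ ℓ - C f` is irreducible (`X_pow_sub_C_irreducible_of_prime hℓ hf`);
`F₁ := AdjoinRoot (X ^ ℓ - C f)` (a field via `Fact (Irreducible _)`), `Algebra K F₁` and the scalar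
tower are the instances of `AdjoinRoot` (`AdjoinRoot.instAlgebra`, `AdjoinRoot.isScalarTower...`;
otherwise define `Algebra K F₁ := ((algebraMap F F₁).comp (algebraMap K F)).toAlgebra` and
`IsScalarTower.of_algebraMap_eq fun _ => rfl`), finite dimensional
(`AdjoinRoot.powerBasis`/`PowerBasis.finite`, or `(monic_X_pow_sub_C f hℓ.ne_zero).finite_adjoinRoot`),
`u := AdjoinRoot.root _` (`root_X_pow_sub_C_pow`),
`σ := autAdjoinRootXPowSubC ℓ f ⟨Units.map (algebraMap K F) ζ, _⟩` (`autAdjoinRootXPowSubC_root`).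
`IsFF K F₁` by `isFF_of_finiteDimensional`. -/
theorem exists_kummer (K : Type u) (F : Type v) [Field K] [IsAlgClosed K] [CharZero K] [Field F]
    [Algebra K F] [IsFF K F] (ℓ : ℕ) (hℓ : ℓ.Prime) (f : F) (hf : ∀ b : F, b ^ ℓ ≠ f)
    (ζ : Kˣ) (hζ : ζ ^ ℓ = 1) :
    ∃ (F₁ : Type v) (_ : Field F₁) (_ : Algebra K F₁) (_ : Algebra F F₁)
      (_ : IsScalarTower K F F₁) (_ : FiniteDimensional F F₁) (_ : IsFF K F₁)
      (u : F₁) (σ : F₁ ≃ₐ[F] F₁),
      u ^ ℓ = algebraMap F F₁ f ∧ σ u = algebraMap K F₁ (ζ : K) * u := by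
  have hirr : Irreducible (Polynomial.X ^ ℓ - Polynomial.C f) :=
    X_pow_sub_C_irreducible_of_prime hℓ hf
  have : Fact (Irreducible (Polynomial.X ^ ℓ - Polynomial.C f)) := ⟨hirr⟩
  have hfin : FiniteDimensional F (AdjoinRoot (Polynomial.X ^ ℓ - Polynomial.C f)) :=
    (Polynomial.monic_X_pow_sub_C f hℓ.ne_zero).finite_adjoinRoot
  have hη : Units.map (algebraMap K F : K →* F) ζ ∈ rootsOfUnity ℓ F := by
    rw [mem_rootsOfUnity, ← map_pow, hζ, map_one]
  refine ⟨AdjoinRoot (Polynomial.X ^ ℓ - Polynomial.C f), inferInstance, inferInstance,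
    inferInstance, inferInstance, hfin, isFF_of_finiteDimensional K F _,
    AdjoinRoot.root _, autAdjoinRootXPowSubC ℓ f ⟨_, hη⟩, ?_, ?_⟩
  · exact root_X_pow_sub_C_pow ℓ f
  · rw [autAdjoinRootXPowSubC_root, Algebra.smul_def]
    congr 1

end Fermat.Agent.S19.ND
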