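import Fermat.Agent.S19.ND.Contract
import Fermat.Agent.S19.ND.Compat
import Fermat.Agent.S19.ND.Kummer
import Fermat.Agent.S19.ND.Core

/-!
# S19 block ND, OUTPUT: the Weil pairing on `J[ℓ^k]` is nondegenerate.

* `exists_weil_ne_one_prime` : level `ℓ`;
* `exists_weil_ne_one`       : level `ℓ ^ k`;
* `weil_separates`           : `(∀ y ∈ J[ℓ^k], e(x, y) = e(x', y)) → x = x'`.
All take the contract `DivStatement` (block DIV) as a hypothesis.
-/

set_option autoImplicit false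
set_option linter.unusedSectionVars false

namespace Fermat.Agent.S19.ND

open AlgebraicCurve Fermat.Agent.Lib.RR Fermat.Agent.S19.Weil

universe u v

section aux

variable {K : Type u} {F : Type v} [Field K] [IsAlgClosed K] [CharZero K] [Field F] [Algebra K F]
  [IsFF K F]

/-- a nontrivial `ℓ`-th root of unity. -/
theorem exists_zeta (K : Type u) [Field K] [IsAlgClosed K] [CharZero K] (ℓ : ℕ) (hℓ : ℓ.Prime) :
    ∃ ζ : Kˣ, ζ ^ ℓ = 1 ∧ ζ ≠ 1 := by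
  have : NeZero ℓ := ⟨hℓ.ne_zero⟩
  have : NeZero ((ℓ : ℕ) : K) := ⟨Nat.cast_ne_zero.mpr hℓ.ne_zero⟩
  obtain ⟨z, hz⟩ := IsAlgClosed.exists_root (Polynomial.cyclotomic ℓ K)
    (by rw [Polynomial.degree_cyclotomic]; exact_mod_cast (Nat.totient_pos.mpr hℓ.pos).ne')
  have hp : IsPrimitiveRoot z ℓ := Polynomial.isRoot_cyclotomic_iff.mp hz
  refine ⟨hp.isUnit hℓ.ne_zero |>.unit, ?_, ?_⟩
  · apply Units.ext
    simpa using hp.pow_eq_one
  · intro h
    have h1 : z = 1 := by simpa using congrArg Units.val h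
    exact hℓ.one_lt.ne' (hp.unique (h1 ▸ IsPrimitiveRoot.one))

/-- If `(D, f)` represents `x ≠ 0` then `f` is not an `ℓ`-th power. -/
theorem not_pow_of_ne_zero {ℓ : ℕ} (hℓ : ℓ ≠ 0) {x : Pic0 K F} {D : Divisor K F} {f : F}
    (hx : IsRep ℓ x D f) (hx0 : x ≠ 0) (b : F) : b ^ ℓ ≠ f := by
  intro hb
  apply hx0
  obtain ⟨hD, rfl, hf, hdiv⟩ := hx
  have hb0 : b ≠ 0 := by
    rintro rfl
    rw [zero_pow hℓ] at hb
    exact hf hb.symm
  have hDb : D = divOf (K := K) b := by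
    ext P
    have h1 := DFunLike.congr_fun hdiv P
    rw [← hb, divOf_apply, Finsupp.smul_apply, nsmul_eq_mul, Fermat.Agent.GAL.RED.ord_pow] at h1
    rw [divOf_apply]
    exact (mul_left_cancel₀ (Nat.cast_ne_zero.mpr hℓ) h1).symm
  have h0 : (0 : Pic0 K F) = Pic0.mk ⟨0, zero_mem _⟩ := rfl
  rw [h0, PairAux_mk_eq_mk_iff]
  refine ⟨b⁻¹, inv_ne_zero hb0, ?_⟩
  ext P
  rw [hDb, Finsupp.add_apply, divOf_apply, divOf_apply, Place.ord_inv]
  simp

end aux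

variable (K : Type u) (F : Type v) [Field K] [IsAlgClosed K] [CharZero K] [Field F] [Algebra K F]
  [IsFF K F]

/-- Nondegeneracy at level `ℓ`. -/
theorem exists_weil_ne_one_prime (hDiv : DivStatement.{u, v}) (ℓ : ℕ) (hℓ : ℓ.Prime)
    {x : Pic0 K F} (hx : x ∈ Pic0.torsion K F ℓ) (hx0 : x ≠ 0) :
    ∃ y ∈ Pic0.torsion K F ℓ, weil ℓ x y ≠ 1 := by
  obtain ⟨D, f, hrep, -⟩ := exists_isRep hx ∅
  obtain ⟨ζ, hζ, hζ1⟩ := exists_zeta K ℓ hℓ
  obtain ⟨F₁, _, _, _, _, _, _, u, σ, hu, hσ⟩ :=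
    exists_kummer K F ℓ hℓ f (not_pow_of_ne_zero hℓ.ne_zero hrep hx0) ζ hζ
  have : CharZero F := charZero_of_injective_algebraMap (algebraMap K F).injective
  have : Algebra.IsSeparable F F₁ := Algebra.IsAlgebraic.isSeparable_of_perfectField
  have hu0 : u ≠ 0 := by
    rintro rfl
    rw [zero_pow hℓ.ne_zero] at hu
    exact PairAux_ne_zero hrep ((map_eq_zero (algebraMap F F₁)).mp hu.symm)
  obtain ⟨P₁, E', h', hP, hh, hdeg, hsupp, hE⟩ :=
    exists_data (K := K) (F := F) ℓ (hDiv K F₁ ℓ hℓ) σ hu0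
  obtain ⟨hD, hy⟩ := isRep_pushforward (F := F) σ hh hdeg hE
  refine ⟨_, hy.mem_torsion, ?_⟩
  rw [weil_eq_inv_zeta hℓ.ne_zero hrep hu σ hσ hP hh hsupp hE hy]
  simpa using hζ1

/-- Nondegeneracy at level `ℓ ^ k`. -/
theorem exists_weil_ne_one (hDiv : DivStatement.{u, v}) (ℓ : ℕ) (hℓ : ℓ.Prime) (k : ℕ)
    {x : Pic0 K F} (hx : x ∈ Pic0.torsion K F (ℓ ^ k)) (hx0 : x ≠ 0) :
    ∃ y ∈ Pic0.torsion K F (ℓ ^ k), weil (ℓ ^ k) x y ≠ 1 := by
  induction k with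
  | zero =>
    rw [Pic0.mem_torsion] at hx
    simp at hx
    exact absurd hx hx0
  | succ k ih =>
    by_cases hk : ℓ ^ k • x = 0
    · have hxk : x ∈ Pic0.torsion K F (ℓ ^ k) := by
        rw [Pic0.mem_torsion, natCast_zsmul]
        exact hk
      obtain ⟨y₀, hy₀, hne⟩ := ih hxk
      obtain ⟨y, rfl⟩ := hDiv K F ℓ hℓ y₀
      have hy : y ∈ Pic0.torsion K F (ℓ * ℓ ^ k) := by
        rw [Pic0.mem_torsion, natCast_zsmul] at hy₀ ⊢
        rw [mul_comm, mul_smul]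
        exact hy₀
      refine ⟨y, by rwa [pow_succ'], ?_⟩
      rw [pow_succ', weil_mul_right hxk hy]
      exact hne
    · have hx' : x ∈ Pic0.torsion K F (ℓ ^ k * ℓ) := by rwa [← pow_succ]
      have hxk : ℓ ^ k • x ∈ Pic0.torsion K F ℓ := by
        rw [Pic0.mem_torsion, natCast_zsmul] at hx' ⊢
        rw [← mul_smul, mul_comm]
        exact hx'
      obtain ⟨y, hy, hne⟩ := exists_weil_ne_one_prime K F hDiv ℓ hℓ hxk hk
      have hy' : y ∈ Pic0.torsion K F (ℓ ^ (k + 1)) := by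
        rw [Pic0.mem_torsion, natCast_zsmul] at hy ⊢
        rw [pow_succ, mul_smul, hy, smul_zero]
      refine ⟨y, hy', ?_⟩
      rw [pow_succ, weil_mul_left hx' hy]
      exact hne

/-- The functions `e(·, y)`, `y ∈ J[ℓ^k]`, separate the points of `J[ℓ^k]`. -/
theorem weil_separates (hDiv : DivStatement.{u, v}) (ℓ : ℕ) (hℓ : ℓ.Prime) (k : ℕ)
    {x x' : Pic0 K F} (hx : x ∈ Pic0.torsion K F (ℓ ^ k)) (hx' : x' ∈ Pic0.torsion K F (ℓ ^ k))
    (h : ∀ y ∈ Pic0.torsion K F (ℓ ^ k), weil (ℓ ^ k) x y = weil (ℓ ^ k) x' y) : x = x' := by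
  by_contra hne
  have hd : x - x' ∈ Pic0.torsion K F (ℓ ^ k) := sub_mem hx hx'
  obtain ⟨y, hy, hy1⟩ := exists_weil_ne_one K F hDiv ℓ hℓ k hd (sub_ne_zero.mpr hne)
  apply hy1
  have h1 := weil_add_left hd hx' hy
  rw [sub_add_cancel, h y hy] at h1
  exact mul_eq_right.mp h1.symm

end Fermat.Agent.S19.ND
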