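import Fermat.Agent.S19.Weil.Proj
import Fermat.Agent.S19.Weil.EvGal

/-!
# S19 block ND, leaf N2: an `F`-automorphism `σ` of `F'` acting on the places of `F'`.
-/

set_option autoImplicit false
set_option linter.unusedSectionVars false

namespace Fermat.Agent.S19.ND

open AlgebraicCurve Fermat.Agent.Lib.RR Fermat.Agent.S19.Weil

variable {K F F' : Type*} [Field K] [Field F] [Field F'] [Algebra K F]
  [Algebra K F'] [Algebra F F'] [IsScalarTower K F F']

variable (K) in
/-- `σ` as a (`K`-linear) semilinear automorphism of `F' / K`. -/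
noncomputable def sa (σ : F' ≃ₐ[F] F') : SemilinearAut K F' :=
  SemilinearAut.ofAlgAut (σ.restrictScalars K)

theorem sa_smul (σ : F' ≃ₐ[F] F') (a : F') : sa K σ • a = σ a := rfl

theorem baseAut_sa (σ : F' ≃ₐ[F] F') : SemilinearAut.baseAut (sa K σ) = 1 := rfl

/-- `σ w` and `w` lie above the same place of `F`: `Place.ext` + `Place.mem_restrict_iff` +
`ValuationSubring.mem_pointwise_smul_iff_inv_smul_mem`; `σ⁻¹` fixes `algebraMap F F' f`. -/
theorem restrict_sa_smul [Algebra.IsIntegral F F'] (σ : F' ≃ₐ[F] F') (w : Place K F') :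
    (sa K σ • w).restrict F = w.restrict F := by
  apply Place.ext
  ext f
  rw [Place.mem_restrict_iff, Place.mem_restrict_iff, SemilinearAut.smul_toValuationSubring,
    ValuationSubring.mem_pointwise_smul_iff_inv_smul_mem]
  have h1 : (sa K σ)⁻¹ • algebraMap F F' f = algebraMap F F' f := by
    rw [inv_smul_eq_iff, sa_smul, AlgEquiv.commutes]
  rw [h1]

/-- `π_* (σ D') = π_* D'` (`Finsupp.induction_linear`, `SemilinearAut.smul_single`,
`Divisor.mapRestrict_single`, `restrict_sa_smul`). -/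
theorem mapRestrict_sa_smul [Algebra.IsIntegral F F'] (σ : F' ≃ₐ[F] F') (D' : Divisor K F') :
    Divisor.mapRestrict F (sa K σ • D') = Divisor.mapRestrict F D' := by
  induction D' using Finsupp.induction_linear with
  | zero => rw [smul_zero]
  | add D E hD hE => rw [smul_add, map_add, map_add, hD, hE]
  | single w n =>
    rw [SemilinearAut.smul_single, Divisor.mapRestrict_single, Divisor.mapRestrict_single,
      restrict_sa_smul]

/-- If `σ u = ζ u` then `ord_{σ w} u = ord_w u`
(`SemilinearAut.ord_smul` for `f = u`: `ord_{σ w} (ζ u) = ord_w u`; `Place.ord_mul`,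
`ord_algebraMap`). -/
theorem ord_sa_smul_of_eigen [IsFF K F'] (σ : F' ≃ₐ[F] F') {u : F'} {ζ : Kˣ}
    (hσ : σ u = algebraMap K F' (ζ : K) * u) (w : Place K F') :
    (sa K σ • w).ord u = w.ord u := by
  rcases eq_or_ne u 0 with rfl | hu
  · simp
  have h1 := SemilinearAut.ord_smul (sa K σ) w u
  have hζ : algebraMap K F' (ζ : K) ≠ 0 := (map_ne_zero _).mpr ζ.ne_zero
  rw [sa_smul, hσ, Place.ord_mul _ hζ hu, Fermat.Agent.GAL.RED.ord_algebraMap, zero_add] at h1
  exact h1

/-- If `σ u = ζ u` and `u` is a unit at `w`, then `u(σ w) = ζ⁻¹ u(w)`.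
PROOF. `evU_smul (sa K σ) w u : evU (σ w) (σ u) = evU w u` (`baseAut_sa`, `Units.map` of the
identity), and `evU (σ w) (ζ u) = ζ * evU (σ w) u` (`evU_mul`, `evU_algebraMap`,
`ord_sa_smul_of_eigen`). -/
theorem evU_sa_smul_of_eigen [IsAlgClosed K] [IsFF K F'] (σ : F' ≃ₐ[F] F') {u : F'} {ζ : Kˣ}
    (hu : u ≠ 0) (hσ : σ u = algebraMap K F' (ζ : K) * u) (w : Place K F') (hw : w.ord u = 0) :
    evU (sa K σ • w) u = ζ⁻¹ * evU w u := by
  have h1 := evU_smul (sa K σ) w u
  have hζ : algebraMap K F' (ζ : K) ≠ 0 := (map_ne_zero _).mpr ζ.ne_zero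
  have h2 : Units.map (SemilinearAut.baseAut (sa K σ) : K →* K) (evU w u) = evU w u := by
    ext
    rfl
  rw [h2, sa_smul, hσ, evU_mul _ hζ (Fermat.Agent.GAL.RED.ord_algebraMap _ _) hu
    ((ord_sa_smul_of_eigen σ hσ w).trans hw), evU_algebraMap] at h1
  rw [← h1, inv_mul_cancel_left]

end Fermat.Agent.S19.ND
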