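import Fermat.Agent.S19.ND.Aut
import Fermat.Agent.S19.Weil.Pairing
import Fermat.Agent.GAL.FF.Corollaries

/-!
# S19 block ND, leaf N5: the core computation, divisors.

Setting: `F' / F` finite (separable) extension of function fields over `K`, `(D, f)` represents
`x ∈ J_F[ℓ]`, `u ∈ F'` with `u ^ ℓ = f`, `σ ∈ Aut(F'/F)` with `σ u = ζ u`.
If `ℓ E' = (σ - 1) P₁ + div h'` on `F'`, with `u` a unit at `P₁` and on the support of `E'`, then
`y := [π_* E'] ∈ J_F[ℓ]` (with `ℓ π_* E' = div (N h')`) and `e_ℓ(x, y) = ζ⁻¹`.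
-/

set_option autoImplicit false
set_option linter.unusedSectionVars false

namespace Fermat.Agent.S19.ND

open AlgebraicCurve Fermat.Agent.Lib.RR Fermat.Agent.S19.Weil

variable {K F F' : Type*} [Field K] [IsAlgClosed K] [CharZero K] [Field F] [Field F'] [Algebra K F]
  [Algebra K F'] [Algebra F F'] [IsScalarTower K F F'] [FiniteDimensional F F']
  [Algebra.IsSeparable F F'] [IsFF K F] [IsFF K F']

/-- `div u = π^* D`: `ℓ • div u = div (u^ℓ) = div (π^* f) = π^* (div f) = ℓ • π^* D`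
(`divOf_algebraMap_eq_pullback`, `map_nsmul`; `divOf (u ^ ℓ) = ℓ • divOf u` by `Finsupp.ext`,
`divOf_apply`, `GAL.RED.ord_pow`); divisors are torsion free (evaluate at a place, `mul_left_cancel₀`). -/
theorem divOf_root {ℓ : ℕ} (hℓ : ℓ ≠ 0) {D : Divisor K F} {f : F} {u : F'}
    (hdiv : divOf (K := K) f = ℓ • D) (hu : u ^ ℓ = algebraMap F F' f) :
    divOf (K := K) u = Divisor.pullback F' D := by
  have h1 : ℓ • divOf (K := K) u = ℓ • Divisor.pullback F' D := by
    rw [← divOf_pow, hu, divOf_algebraMap_eq_pullback, hdiv, map_nsmul]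
  ext w
  have h2 := DFunLike.congr_fun h1 w
  simp only [Finsupp.smul_apply, nsmul_eq_mul] at h2
  exact mul_left_cancel₀ (Nat.cast_ne_zero.2 hℓ) h2

/-- `deg π_* D' = deg D'` (`pushforward_eq_mapRestrict`, `Divisor.degree_pushforward`). -/
theorem degree_mapRestrict (D' : Divisor K F') :
    Divisor.degree (Divisor.mapRestrict F D') = Divisor.degree D' := by
  rw [← pushforward_eq_mapRestrict, Divisor.degree_pushforward]

/-- `(π_* E')(P) = 0` if `E'` vanishes at all places above `P`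
(`pushforward_eq_mapRestrict`, `Divisor.pushforward_apply`; or `Finsupp.mapDomain`/`Finsupp.sum`
directly: `Divisor.mapRestrict` is the `liftAddHom` of `w ↦ single (w.restrict F)`). -/
theorem mapRestrict_apply_eq_zero {E' : Divisor K F'} {P : Place K F}
    (h : ∀ w : Place K F', w.restrict F = P → E' w = 0) : Divisor.mapRestrict F E' P = 0 := by
  rw [normOrd_mapRestrict_apply]
  exact Finset.sum_eq_zero fun w hw => h w (Place.mem_fiber.1 hw)

/-- Existence of the data on `F'`, from the divisibility of the class of `(σ - 1) P₁`.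
PROOF. `S := (divOf u).support`.  `Place K F'` is infinite (`FF.infinite_place`), so there is
`P₁ ∉ S` (`Infinite.exists_notMem_finset`), i.e. `ord_{P₁} u = 0`.  `B := σ P₁ - P₁` has degree `0`
(`Divisor.degree_single`, `SemilinearAut.deg_smul`, or `SemilinearAut.degree_smul`).  `hdiv` applied
to `Pic0.mk ⟨B, _⟩` gives `c'`; `Pic0.mk_surjective c'` gives `E₀`, `exists_move E₀ S` moves it to
`E' = E₀ + div a` vanishing on `S` (same class: `PairAux_mk_eq_mk_iff`);
`ℓ • mk E' = mk B` gives `h'` by `PairAux_mk_eq_mk_iff`. -/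
theorem exists_data (ℓ : ℕ) (hdivis : ∀ b : Pic0 K F', ∃ c : Pic0 K F', ℓ • c = b)
    (σ : F' ≃ₐ[F] F') {u : F'} (hu : u ≠ 0) :
    ∃ (P₁ : Place K F') (E' : Divisor K F') (h' : F'), P₁.ord u = 0 ∧ h' ≠ 0 ∧
      Divisor.degree E' = 0 ∧ (∀ w : Place K F', w.ord u ≠ 0 → E' w = 0) ∧
      ℓ • E' = (Finsupp.single (sa K σ • P₁) 1 - Finsupp.single P₁ 1) + divOf (K := K) h' := by
  classical
  have hinf : Infinite (Place K F') := Fermat.Agent.GAL.RED.infinite_place
  obtain ⟨P₁, hP₁⟩ := Infinite.exists_notMem_finset (divOf (K := K) u).support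
  have hP₁' : P₁.ord u = 0 := by
    rw [Finsupp.mem_support_iff, not_not, divOf_apply] at hP₁
    exact hP₁
  have hB : (Finsupp.single (sa K σ • P₁) 1 - Finsupp.single P₁ 1 : Divisor K F') ∈
      Divisor.degZero (K := K) (F := F') := by
    rw [Divisor.mem_degZero, map_sub, ← SemilinearAut.smul_single, SemilinearAut.degree_smul,
      sub_self]
  obtain ⟨c', hc'⟩ := hdivis (Pic0.mk ⟨_, hB⟩)
  obtain ⟨⟨E₀, hE₀⟩, rfl⟩ := Pic0.mk_surjective c'
  obtain ⟨a, ha, hmove⟩ := exists_move E₀ (divOf (K := K) u).support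
  have hE' : E₀ + divOf (K := K) a ∈ Divisor.degZero (K := K) (F := F') := by
    rw [Divisor.mem_degZero, map_add, degree_divOf, add_zero]
    exact Divisor.mem_degZero.1 hE₀
  have hsame : Pic0.mk ⟨E₀, hE₀⟩ = Pic0.mk ⟨E₀ + divOf (K := K) a, hE'⟩ :=
    (PairAux_mk_eq_mk_iff hE₀ hE').2 ⟨a, ha, rfl⟩
  have hℓE : ℓ • (E₀ + divOf (K := K) a) ∈ Divisor.degZero (K := K) (F := F') :=
    AddSubgroup.nsmul_mem _ hE' ℓ
  have hmk : Pic0.mk ⟨_, hB⟩ = Pic0.mk ⟨ℓ • (E₀ + divOf (K := K) a), hℓE⟩ := by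
    rw [← hc', hsame]
    rfl
  obtain ⟨h', hh', hEq⟩ := (PairAux_mk_eq_mk_iff hB hℓE).1 hmk
  refine ⟨P₁, E₀ + divOf (K := K) a, h', hP₁', hh', Divisor.mem_degZero.1 hE', ?_, hEq⟩
  intro w hw
  refine hmove w ?_
  rw [Finsupp.mem_support_iff, divOf_apply]
  exact hw

end Fermat.Agent.S19.ND
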