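import Fermat.Agent.S19.Weil.FinDim
import Fermat.Agent.Lib.RR.Instances
import Fermat.Agent.GAL.FF.Corollaries

/-!
# S19 block ND, leaf N3: a finite extension of a function field is a function field.
-/

set_option autoImplicit false
set_option linter.unusedSectionVars false

namespace Fermat.Agent.S19.ND

open AlgebraicCurve Fermat.Agent.Lib.RR IntermediateField

universe u v

/-- A finite extension of a function field (constants algebraically closed of characteristic `0`)
is a function field.
PROOF. `FF.exists_transcendental` gives `x : F` transcendental over `K`;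
`Weil.finiteDimensional_adjoin` : `F / K(x)` finite.  Put `x' := algebraMap F F' x`, transcendental
(`algebraMap` injective).  `F'` is finite over `K(x')`: e.g. `F'` is a finitely generated field
extension of `K`, algebraic over `K(x')`: every element of `F` is algebraic over `K(x)`, its image is
algebraic over `K(x')` (map the polynomial through `K⟮x⟯ → K⟮x'⟯`, or use
`IntermediateField.map`/`adjoin_map`: `(K⟮x⟯).map (IsScalarTower.toAlgHom K F F') = K⟮x'⟯`), or
directly: if `b_i` spans `F` over `K⟮x⟯` and `c_j` spans `F'` over `F`, then `b_i c_j` spans `F'` over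
`K⟮x'⟯`.  Conclude with `isFF_of_transcendental x'`. -/
theorem isFF_of_finiteDimensional (K : Type u) (F : Type v) (F' : Type v) [Field K] [IsAlgClosed K]
    [CharZero K] [Field F] [Field F'] [Algebra K F] [Algebra K F'] [Algebra F F']
    [IsScalarTower K F F'] [FiniteDimensional F F'] [IsFF K F] : IsFF K F' := by
  obtain ⟨x, hx⟩ := Fermat.Agent.GAL.FF.Cor.exists_transcendental (K := K) (F := F)
  have := Fermat.Agent.S19.Weil.finiteDimensional_adjoin hx
  let φ : F →ₐ[K] F' := IsScalarTower.toAlgHom K F F'
  have hx' : Transcendental K (φ x) := by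
    intro h
    exact hx ((isAlgebraic_algHom_iff φ φ.injective).mp h)
  have : Module.Finite K⟮x⟯ F' := Module.Finite.trans F F'
  have hmap : (K⟮x⟯).map φ = K⟮φ x⟯ := by
    rw [IntermediateField.adjoin_map, Set.image_singleton]
  let e : K⟮x⟯ ≃+* K⟮φ x⟯ :=
    ((IntermediateField.equivMap K⟮x⟯ φ).trans (IntermediateField.equivOfEq hmap)).toRingEquiv
  have : FiniteDimensional K⟮φ x⟯ F' := by
    refine Module.Finite.of_equiv_equiv e (RingEquiv.refl F') ?_
    ext y
    rfl
  exact isFF_of_transcendental (φ x) hx'

end Fermat.Agent.S19.ND
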